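import Fermat.Agent.RTI.Main
import Fermat.Agent.S41.HmEig

/-!
# Surjectivity of the pair of traces: same hypotheses as `S41hm.inj_R`
-/

set_option autoImplicit false

noncomputable section

namespace Fermat.Agent.RTI

open Matrix ModularGroup CongruenceSubgroup IsLocalRing Fermat.Agent.TwHecke Fermat.Agent.TwExact
open Fermat.Agent.HeckePar
open scoped MatrixGroups BigOperators

variable {M q : ℕ} [NeZero M] [NeZero q] {R : Type} [CommRing R] [IsLocalRing R]
  {ε : (ZMod M)ˣ →* Rˣ} {S : Set ℕ} {θ : PIdx S → ResidueField R}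

theorem sne_of_strong (h : S41hm.StrongNonEis S θ) : SNE S θ := ⟨h.one, h.two⟩

omit [NeZero M] in
theorem trivAct_of_residue (hε : ∀ u, residue R (ε u : R) = 1) : TrivAct ε (ResidueField R) := by
  intro u a
  rw [Algebra.smul_def]
  show residue R (ε u : R) * a = a
  rw [hε, one_mul]

variable {p : ℕ} [CharP (ResidueField R) p]
variable [IsNoetherianRing R] [IsAdicComplete (maximalIdeal R) R]

include p in
/-- **Surjectivity of the pair of traces.** -/
theorem surj_R (hp : p.Prime) (hp2 : p ≠ 2) (hq : q.Prime) (hqM : ¬ q ∣ M)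
    (hε : ∀ u, residue R (ε u : R) = 1) (hqS : q ∈ S)
    (hne : S41hm.StrongNonEis S θ) (hG : Good M ε S θ) (x y : Hm M ε R S θ) :
    ∃ z : Hm (M * q) (infl (dvd_mul_right M q) ε) R S θ,
      trdHm S θ hq hqM R hqS z = x ∧ trBHm S θ hq hqM R hqS z = y :=
  surj_pair hq hqM hqS hp hp2 (sne_of_strong hne) (trivAct_of_residue hε) hG.eps hG.two hG.three
    x y

include p in
/-- The same with coefficients in a quotient of `R`. -/
theorem surj_quot (hp : p.Prime) (hp2 : p ≠ 2) (hq : q.Prime) (hqM : ¬ q ∣ M)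
    (hε : ∀ u, residue R (ε u : R) = 1) (hqS : q ∈ S)
    (hne : S41hm.StrongNonEis S θ) (hG : Good M ε S θ) {B : Type} [AddCommGroup B] [Module R B]
    (f : R →ₗ[R] B) (hf : Function.Surjective f) (x y : Hm M ε B S θ) :
    ∃ z : Hm (M * q) (infl (dvd_mul_right M q) ε) B S θ,
      trdHm S θ hq hqM B hqS z = x ∧ trBHm S θ hq hqM B hqS z = y := by
  obtain ⟨x', rfl⟩ := hG.surjective f hf x
  obtain ⟨y', rfl⟩ := hG.surjective f hf y
  obtain ⟨z, rfl, rfl⟩ := surj_R hp hp2 hq hqM hε hqS hne hG x' y'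
  exact ⟨HmMap _ _ S θ f z, trdHm_HmMap hq hqM hqS f z, trBHm_HmMap hq hqM hqS f z⟩

end Fermat.Agent.RTI

end
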