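import Fermat.Agent.RTI.Surj
import Fermat.Agent.TwExact.Free

/-!
# Surjectivity of the pair of traces over a complete noetherian local ring
-/

set_option autoImplicit false

noncomputable section

namespace Fermat.Agent.RTI

open Matrix ModularGroup CongruenceSubgroup IsLocalRing Fermat.Agent.TwHecke Fermat.Agent.TwExact
open Fermat.Agent.HeckePar
open scoped MatrixGroups BigOperators

variable {M v : ℕ} [NeZero M] [NeZero v] {R : Type} [CommRing R] [IsLocalRing R]
  {ε : (ZMod M)ˣ →* Rˣ} {S : Set ℕ} {θ : PIdx S → ResidueField R}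

omit [NeZero M] in
theorem TrivAct.residue_wt (h : TrivAct ε (ResidueField R)) (u : (ZMod M)ˣ) :
    residue R (TwHecke.wt ε u) = 1 := by
  have h1 := h.wt u (1 : ResidueField R)
  rw [Algebra.smul_def, mul_one] at h1
  exact h1

/-- The strong condition implies helper21's condition. -/
theorem SNE.twNonEis (h : SNE S θ) (htriv : TrivAct ε (ResidueField R)) : NonEis M ε S θ := by
  obtain ⟨ℓ, h1, h2⟩ := h.ne1 M (Nat.pos_of_ne_zero (NeZero.ne M))
  refine ⟨ℓ, fun hd => ?_, ?_⟩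
  · have h3 : ((ℓ.1 : ℕ) : ℤ) ∣ (M : ℤ) := by exact_mod_cast hd
    have h4 : ((ℓ.1 : ℕ) : ℤ) ∣ ((ℓ.1 : ℕ) : ℤ) - 1 := h3.trans h1
    have h5 : ((ℓ.1 : ℕ) : ℤ) ∣ 1 := by
      have := dvd_sub (dvd_refl ((ℓ.1 : ℕ) : ℤ)) h4
      simpa using this
    have h6 : (ℓ.1 : ℕ) ∣ 1 := by exact_mod_cast h5
    exact ℓ.1.2.one_lt.ne' (Nat.dvd_one.mp h6)
  · rw [map_add, htriv.residue_wt, map_natCast]
    exact h2

theorem SNE.good (h : SNE S θ) (htriv : TrivAct ε (ResidueField R)) (hε : ε (-1) = 1)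
    (h2 : IsUnit (2 : R))
    (h3 : IsUnit (3 : R) ∨ ∀ x : SL(2, ℤ), x * (T * ModularGroup.S) * x⁻¹ ∉ Gamma0 M) :
    Good M ε S θ := ⟨hε, h2, h3, h.twNonEis htriv⟩

theorem three_of_dvd {M M' : ℕ} (hd : M ∣ M')
    (h3 : IsUnit (3 : R) ∨ ∀ x : SL(2, ℤ), x * (T * ModularGroup.S) * x⁻¹ ∉ Gamma0 M) :
    IsUnit (3 : R) ∨ ∀ x : SL(2, ℤ), x * (T * ModularGroup.S) * x⁻¹ ∉ Gamma0 M' := by
  refine h3.imp_right fun h x hx => h x ?_
  rw [Gamma0_mem] at hx ⊢
  rw [ZMod.intCast_zmod_eq_zero_iff_dvd] at hx ⊢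
  exact (Int.natCast_dvd_natCast.mpr hd).trans hx

omit [NeZero M] [NeZero v] in
theorem infl_neg_one {M M' : ℕ} (hd : M ∣ M') {ε : (ZMod M)ˣ →* Rˣ} (hε : ε (-1) = 1) :
    infl hd ε (-1) = 1 := by
  rw [← hε]
  show ε (ZMod.unitsMap hd (-1)) = ε (-1)
  congr 1
  apply Units.ext
  rw [ZMod.unitsMap_def, Units.coe_map]
  show ZMod.castHom hd (ZMod M) (((-1 : (ZMod M')ˣ) : ZMod M')) = _
  rw [Units.val_neg, Units.val_one, map_neg, map_one, Units.val_neg, Units.val_one]

theorem SNE.good_infl (h : SNE S θ) (htriv : TrivAct ε (ResidueField R)) (hε : ε (-1) = 1)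
    (h2 : IsUnit (2 : R))
    (h3 : IsUnit (3 : R) ∨ ∀ x : SL(2, ℤ), x * (T * ModularGroup.S) * x⁻¹ ∉ Gamma0 M)
    {M' : ℕ} [NeZero M'] (hd : M ∣ M') :
    Good M' (infl hd ε) S θ :=
  h.good (htriv.infl hd) (infl_neg_one hd hε) h2 (three_of_dvd hd h3)

variable (hv : v.Prime) (hvM : ¬ v ∣ M)
variable {p : ℕ} [CharP (ResidueField R) p]
variable [IsNoetherianRing R] [IsAdicComplete (maximalIdeal R) R]

omit [NeZero v] in
/-- The kernel of the map induced by a surjection of coefficients. -/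
theorem ker_HmMap (h : Good M ε S θ) {B : Type} [AddCommGroup B] [Module R B] (f : R →ₗ[R] B)
    (hf : Function.Surjective f) (I : Ideal R) (hI : I = LinearMap.ker f) :
    LinearMap.ker (HmMap M ε S θ f) = I • (⊤ : Submodule R (Hm M ε R S θ)) := by
  classical
  have hfin : Module.Finite R I := inferInstance
  rw [← HmMap_exact (Submodule.subtype I) f (Submodule.injective_subtype I)
    hf (by rw [Submodule.range_subtype, hI])]
  apply le_antisymm
  · rintro _ ⟨Z, rfl⟩
    obtain ⟨k, q, hq⟩ := Module.Finite.exists_fin' R I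
    obtain ⟨Y, rfl⟩ := h.surjective q hq Z
    rw [← HmMap_comp]
    conv => rw [HmMap_pi_eq_sum Y]
    rw [HmMap_of_components]
    refine Submodule.sum_mem _ fun j _ => ?_
    exact Submodule.smul_mem_smul (q (Pi.single j 1)).2 Submodule.mem_top
  · rw [Submodule.smul_le]
    intro r hr x _
    refine ⟨HmMap M ε S θ (LinearMap.toSpanSingleton R I ⟨r, hr⟩) x, ?_⟩
    rw [← HmMap_comp, ← HmMap_toSpanSingleton_smul]
    rfl

variable (R) in
/-- The residue map as a linear map. -/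
def resL : R →ₗ[R] ResidueField R := LinearMap.toSpanSingleton R (ResidueField R) 1

omit [IsNoetherianRing R] [IsAdicComplete (maximalIdeal R) R] in
theorem resL_apply (r : R) : resL R r = residue R r := by
  rw [resL, LinearMap.toSpanSingleton_apply, Algebra.smul_def, mul_one]
  rfl

omit [IsNoetherianRing R] [IsAdicComplete (maximalIdeal R) R] in
theorem resL_surjective : Function.Surjective (resL R) := fun x => by
  obtain ⟨r, rfl⟩ := residue_surjective x
  exact ⟨r, resL_apply r⟩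

omit [NeZero v] in
theorem ker_HmMap_residue (h : Good M ε S θ) :
    LinearMap.ker (HmMap M ε S θ (resL R)) =
      maximalIdeal R • (⊤ : Submodule R (Hm M ε R S θ)) :=
  ker_HmMap h _ resL_surjective _ (by
    ext x
    rw [LinearMap.mem_ker, resL_apply, residue_eq_zero_iff])

omit [NeZero v] in
theorem lift_residue (h : Good M ε S θ) (z : Hm M ε (ResidueField R) S θ) :
    ∃ z' : Hm M ε R S θ, HmMap M ε S θ (resL R) z' = z :=
  h.surjective (resL R) resL_surjective z

omit [IsNoetherianRing R] [IsAdicComplete (maximalIdeal R) R] in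
theorem trdHm_HmMap {A B : Type} [AddCommGroup A] [Module R A] [AddCommGroup B] [Module R B]
    (hvS : v ∈ S) (f : A →ₗ[R] B) (z : Hm (M * v) (infl (dvd_mul_right M v) ε) A S θ) :
    trdHm S θ hv hvM B hvS (HmMap (M * v) (infl (dvd_mul_right M v) ε) S θ f z) =
      HmMap M ε S θ f (trdHm S θ hv hvM A hvS z) := by
  apply Subtype.ext
  rw [coe_trdHm, coe_HmMap, coe_HmMap, coe_trdHm, trd_map]

omit [IsNoetherianRing R] [IsAdicComplete (maximalIdeal R) R] in
theorem trBHm_HmMap {A B : Type} [AddCommGroup A] [Module R A] [AddCommGroup B] [Module R B]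
    (hvS : v ∈ S) (f : A →ₗ[R] B) (z : Hm (M * v) (infl (dvd_mul_right M v) ε) A S θ) :
    trBHm S θ hv hvM B hvS (HmMap (M * v) (infl (dvd_mul_right M v) ε) S θ f z) =
      HmMap M ε S θ f (trBHm S θ hv hvM A hvS z) := by
  apply Subtype.ext
  rw [coe_trBHm, coe_HmMap, coe_HmMap, coe_trBHm, trB_map]

theorem surj_step (hvS : v ∈ S) (hp : p.Prime) (hp2 : p ≠ 2) (hne : SNE S θ)
    (htriv : TrivAct ε (ResidueField R)) (hε : ε (-1) = 1) (h2 : IsUnit (2 : R))
    (h3 : IsUnit (3 : R) ∨ ∀ x : SL(2, ℤ), x * (T * ModularGroup.S) * x⁻¹ ∉ Gamma0 M)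
    (a b : Hm M ε R S θ) :
    ∃ z : Hm (M * v) (infl (dvd_mul_right M v) ε) R S θ,
      HmMap M ε S θ (resL R) (trdHm S θ hv hvM R hvS z) = HmMap M ε S θ (resL R) a ∧
      HmMap M ε S θ (resL R) (trBHm S θ hv hvM R hvS z) = HmMap M ε S θ (resL R) b := by
  have : NeZero (M * v) := ⟨mul_ne_zero (NeZero.ne M) hv.ne_zero⟩
  have hG' : Good (M * v) (infl (dvd_mul_right M v) ε) S θ := hne.good_infl htriv hε h2 h3 _
  obtain ⟨z, hz1, hz2⟩ := surj_bottom hv hvM hvS hp hp2 hne htriv hε h2 h3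
    (HmMap M ε S θ (resL R) a) (HmMap M ε S θ (resL R) b)
  obtain ⟨z', hz'⟩ := lift_residue hG' z
  refine ⟨z', ?_, ?_⟩
  · rw [← trdHm_HmMap, hz', hz1]
  · rw [← trBHm_HmMap, hz', hz2]

omit [NeZero M] [NeZero v] [IsAdicComplete (maximalIdeal R) R] in
/-- Nakayama for pairs. -/
theorem nak_pair {H H' : Type} [AddCommGroup H] [Module R H] [Module.Finite R H]
    [AddCommGroup H'] [Module R H'] (f g : H' →ₗ[R] H)
    (h : ∀ a b : H, ∃ z, a - f z ∈ maximalIdeal R • (⊤ : Submodule R H) ∧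
      b - g z ∈ maximalIdeal R • (⊤ : Submodule R H)) (x y : H) :
    ∃ z, f z = x ∧ g z = y := by
  have hle : (⊤ : Submodule R (H × H)) ≤ LinearMap.range (LinearMap.prod f g) ⊔
      maximalIdeal R • ⊤ := by
    rintro ⟨a, b⟩ -
    obtain ⟨z, h4, h5⟩ := h a b
    have h6 : (a, b) = LinearMap.prod f g z + (LinearMap.inl R _ _ (a - f z) +
        LinearMap.inr R _ _ (b - g z)) := by
      refine Prod.ext ?_ ?_
      · show a = f z + ((a - f z) + 0)
        abel
      · show b = g z + (0 + (b - g z))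
        abel
    rw [h6]
    refine Submodule.add_mem_sup ⟨z, rfl⟩ (Submodule.add_mem _ ?_ ?_)
    · have h7 := Submodule.mem_map_of_mem (f := LinearMap.inl R H H) h4
      rw [Submodule.map_smul''] at h7
      exact Submodule.smul_mono le_rfl le_top h7
    · have h7 := Submodule.mem_map_of_mem (f := LinearMap.inr R H H) h5
      rw [Submodule.map_smul''] at h7
      exact Submodule.smul_mono le_rfl le_top h7
  have h8 := Submodule.le_of_le_smul_of_le_jacobson_bot (Module.Finite.fg_top)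
    (maximalIdeal_le_jacobson _) hle
  obtain ⟨z, hz⟩ := h8 (Submodule.mem_top (x := (x, y)))
  exact ⟨z, congrArg Prod.fst hz, congrArg Prod.snd hz⟩

/-- **Surjectivity of the pair of traces** `(tr, tr ∘ w_v) : H¹(Γ₀(M v))_𝔪 → H¹(Γ₀(M))_𝔪²`
over a complete noetherian local ring, `v ∤ M` any prime (also the residue characteristic). -/
theorem surj_pair (hvS : v ∈ S) (hp : p.Prime) (hp2 : p ≠ 2) (hne : SNE S θ)
    (htriv : TrivAct ε (ResidueField R)) (hε : ε (-1) = 1) (h2 : IsUnit (2 : R))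
    (h3 : IsUnit (3 : R) ∨ ∀ x : SL(2, ℤ), x * (T * ModularGroup.S) * x⁻¹ ∉ Gamma0 M)
    (x y : Hm M ε R S θ) :
    ∃ z : Hm (M * v) (infl (dvd_mul_right M v) ε) R S θ,
      trdHm S θ hv hvM R hvS z = x ∧ trBHm S θ hv hvM R hvS z = y := by
  have hG : Good M ε S θ := hne.good htriv hε h2 h3
  have hfin : Module.Finite R (Hm M ε R S θ) := finite_Hm R ε θ
  refine nak_pair (trdHm S θ hv hvM R hvS) (trBHm S θ hv hvM R hvS) (fun a b => ?_) x y
  obtain ⟨z, hz1, hz2⟩ := surj_step hv hvM hvS hp hp2 hne htriv hε h2 h3 a b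
  refine ⟨z, ?_, ?_⟩
  · rw [← ker_HmMap_residue hG, LinearMap.mem_ker, map_sub, hz1, sub_self]
  · rw [← ker_HmMap_residue hG, LinearMap.mem_ker, map_sub, hz2, sub_self]

end Fermat.Agent.RTI

end
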