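import Fermat.Agent.TwExact.MPart

/-!
# A Nakayama argument for commuting operators on finite modules over a local ring
-/

set_option autoImplicit false

noncomputable section

namespace Fermat.Agent.RTI

open IsLocalRing Fermat.Agent.TwExact

theorem exists_functional_R {R : Type*} [CommRing R] [IsLocalRing R] {B : Type*} [AddCommGroup B]
    [Module R B] (hB : ∀ r ∈ maximalIdeal R, ∀ b : B, r • b = 0) {v : B} (hv : v ≠ 0) :
    ∃ f : B →ₗ[R] ResidueField R, f v ≠ 0 := by
  have htors : Module.IsTorsionBySet R B (maximalIdeal R) := fun b r => hB r.1 r.2 b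
  let inst : Module (R ⧸ maximalIdeal R) B := htors.module
  let inst' : Module (ResidueField R) B := inst
  have hst : ∀ (r : R) (b : B), (residue R r) • b = r • b := fun r b =>
    Module.IsTorsionBySet.mk_smul htors r b
  obtain ⟨f, hf⟩ := Module.Projective.exists_dual_ne_zero (V := B) (ResidueField R) hv
  refine ⟨{ toFun := f, map_add' := map_add f, map_smul' := fun r b => ?_ }, hf⟩
  rw [RingHom.id_apply, ← hst, map_smul, Algebra.smul_def]
  rfl

section Main

variable {R : Type} [CommRing R] [IsLocalRing R] {ι : Type} {θ : ι → ResidueField R}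
variable {H H' : Type} [AddCommGroup H] [Module R H] [AddCommGroup H'] [Module R H']
  [Module.Finite R H]

/-- **Nakayama**: if every joint eigenfunctional with eigenvalues `θ` which kills the range of
`τ` is zero, then some polynomial `t` with `t(θ) = 1` maps everything in the range of `τ`. -/
theorem exists_cev_mem_range {T : ι → Module.End R H} (hT : ∀ i j, Commute (T i) (T j))
    {T' : ι → Module.End R H'} (τ : H' →ₗ[R] H) (hτ : ∀ i x, τ (T' i x) = T i (τ x))
    (hY : ∀ Y : H →ₗ[R] ResidueField R, (∀ i x, Y (T i x) = θ i * Y x) → (∀ x, Y (τ x) = 0) →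
      Y = 0) :
    ∃ t : MvPolynomial ι R, evk θ t = 1 ∧ ∀ x, ∃ z, cev T hT t x = τ z := by
  classical
  -- module structure
  let _ : Module (MvPolynomial ι R) H := Module.compHom H (cev T hT).toRingHom
  have hsmul : ∀ (t : MvPolynomial ι R) (x : H), t • x = cev T hT t x := fun t x => rfl
  have hstable : ∀ (t : MvPolynomial ι R) (x : H), (∃ z, τ z = x) → ∃ z, τ z = cev T hT t x := by
    intro t
    induction t using MvPolynomial.induction_on with
    | C a =>
      rintro _ ⟨z, rfl⟩
      exact ⟨a • z, by rw [cev_C, Module.algebraMap_end_apply, map_smul]⟩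
    | add p q hp hq =>
      intro x hx
      obtain ⟨z, hz⟩ := hp x hx
      obtain ⟨z', hz'⟩ := hq x hx
      exact ⟨z + z', by rw [map_add, map_add, LinearMap.add_apply, hz, hz']⟩
    | mul_X p i hp =>
      rintro _ ⟨z, rfl⟩
      rw [map_mul, Module.End.mul_apply, cev_X]
      exact hp _ ⟨T' i z, hτ i z⟩
  let Q : Submodule (MvPolynomial ι R) H :=
    { carrier := Set.range τ
      add_mem' := by rintro _ _ ⟨x, rfl⟩ ⟨y, rfl⟩; exact ⟨x + y, map_add _ _ _⟩
      zero_mem' := ⟨0, map_zero _⟩
      smul_mem' := by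
        intro t x hx
        rw [hsmul]
        exact hstable t x hx }
  have hQ : ∀ x, x ∈ Q ↔ ∃ z, τ z = x := fun x => Iff.rfl
  let I : Ideal (MvPolynomial ι R) := RingHom.ker (evk θ)
  -- finite generation over the polynomial ring
  have hCsmul : ∀ (a : R) (x : H), (MvPolynomial.C a : MvPolynomial ι R) • x = a • x := by
    intro a x
    rw [hsmul, cev_C, Module.algebraMap_end_apply]
  have : IsScalarTower R (MvPolynomial ι R) H := ⟨fun n t x => by
    rw [MvPolynomial.smul_eq_C_mul, mul_smul, hCsmul]⟩
  have : Module.Finite (MvPolynomial ι R) H :=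
    Module.Finite.of_restrictScalars_finite R (MvPolynomial ι R) H
  have : Module.Finite (MvPolynomial ι R) (H ⧸ Q) := inferInstance
  have hle : (⊤ : Submodule (MvPolynomial ι R) (H ⧸ Q)) ≤ I • ⊤ := by
    -- otherwise there is a functional
    by_contra hcon
    set W : Submodule (MvPolynomial ι R) (H ⧸ Q) := I • ⊤ with hW
    obtain ⟨v, hv⟩ : ∃ v, v ∉ W := by
      by_contra h; push Not at h
      exact hcon fun x _ => h x
    -- the quotient is a vector space over the residue field
    let B := (H ⧸ Q) ⧸ W
    have hB : ∀ r ∈ maximalIdeal R, ∀ b : B, r • b = 0 := by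
      intro r hr b
      obtain ⟨x, rfl⟩ := Submodule.Quotient.mk_surjective W b
      rw [← Submodule.Quotient.mk_smul, Submodule.Quotient.mk_eq_zero]
      have h1 : (MvPolynomial.C r : MvPolynomial ι R) ∈ I := by
        rw [RingHom.mem_ker, evk_C]; exact (residue_eq_zero_iff r).mpr hr
      have h2 : r • x = (MvPolynomial.C r : MvPolynomial ι R) • x := by
        rw [← MvPolynomial.algebraMap_eq, algebraMap_smul]
      rw [h2]
      exact Submodule.smul_mem_smul h1 Submodule.mem_top
    have hvB : (Submodule.Quotient.mk v : B) ≠ 0 := by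
      rwa [Ne, Submodule.Quotient.mk_eq_zero]
    obtain ⟨f, hf⟩ := exists_functional_R hB hvB
    -- the composite functional
    let π : H →ₗ[R] B := ((Submodule.mkQ W).restrictScalars R).comp
      ((Submodule.mkQ Q).restrictScalars R)
    let Y : H →ₗ[R] ResidueField R := f.comp π
    have hπI : ∀ (t : MvPolynomial ι R) (x : H), t ∈ I → π (t • x) = 0 := by
      intro t x ht
      show Submodule.Quotient.mk (Submodule.Quotient.mk (t • x)) = (0 : B)
      rw [Submodule.Quotient.mk_eq_zero, Submodule.Quotient.mk_smul]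
      exact Submodule.smul_mem_smul ht Submodule.mem_top
    have hY1 : ∀ i x, Y (T i x) = θ i * Y x := by
      intro i x
      obtain ⟨n, hn⟩ := residue_surjective (θ i)
      have ht : (MvPolynomial.X i - MvPolynomial.C n : MvPolynomial ι R) ∈ I := by
        rw [RingHom.mem_ker, map_sub, sub_eq_zero, evk_X, evk_C, hn]
      have h1 := hπI _ x ht
      rw [sub_smul, hsmul, hCsmul, cev_X, map_sub, sub_eq_zero] at h1
      show f (π (T i x)) = θ i * f (π x)
      rw [h1, map_smul, map_smul, ← hn, Algebra.smul_def]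
      rfl
    have hY2 : ∀ x, Y (τ x) = 0 := by
      intro x
      have : (Submodule.Quotient.mk (τ x) : H ⧸ Q) = 0 := by
        rw [Submodule.Quotient.mk_eq_zero, hQ]; exact ⟨x, rfl⟩
      show f (Submodule.Quotient.mk (Submodule.Quotient.mk (τ x))) = 0
      rw [this, Submodule.Quotient.mk_zero, map_zero]
    have hY0 := hY Y hY1 hY2
    obtain ⟨u, rfl⟩ := Submodule.Quotient.mk_surjective Q v
    exact hf (DFunLike.congr_fun hY0 u)
  obtain ⟨r, hr, hr0⟩ := Submodule.exists_sub_one_mem_and_smul_eq_zero_of_fg_of_le_smul I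
    (⊤ : Submodule (MvPolynomial ι R) (H ⧸ Q)) (Module.Finite.fg_top) hle
  refine ⟨r, ?_, fun x => ?_⟩
  · have : evk θ (r - 1) = 0 := hr
    rw [map_sub, map_one, sub_eq_zero] at this
    exact this
  · have h1 := hr0 (Submodule.Quotient.mk x) Submodule.mem_top
    rw [← Submodule.Quotient.mk_smul, Submodule.Quotient.mk_eq_zero, hQ] at h1
    obtain ⟨z, hz⟩ := h1
    exact ⟨z, hz.symm⟩

end Main

end Fermat.Agent.RTI

end
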