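import Fermat.Agent.S41.DualSurj
import Fermat.Agent.TwExact.Surj

/-!
# Surjectivity (up to the factor `8`) of the duality map `Ψ` with coefficients
-/

set_option autoImplicit false

noncomputable section

namespace Fermat.Agent.RTI

open Matrix ModularGroup Fermat.Agent.S41dual Fermat.Agent.TwHecke
open scoped MatrixGroups BigOperators

section CCA

variable {A : Type*} [AddCommGroup A]

theorem ss_finite_smul (w : SL(2, ℤ) → A) (g h : SL(2, ℤ)) :
    (Function.support fun x : SL(2, ℤ) => (ss (g * x) - ss (h * x)) • w x).Finite := by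
  refine (ss_finite g h).subset fun x hx => ?_
  rw [Function.mem_support] at hx ⊢
  intro h0
  apply hx
  rw [h0, zero_smul]

/-- the total crossing number with weights `w`. -/
def CCA (w : SL(2, ℤ) → A) (g : SL(2, ℤ)) : A := ∑ᶠ x : SL(2, ℤ), (ss (g⁻¹ * x) - ss x) • w x

theorem CCA_one (w : SL(2, ℤ) → A) : CCA w 1 = 0 := by
  simp [CCA]

theorem CCA_mul_S (w : SL(2, ℤ) → A) (g : SL(2, ℤ)) : CCA w (g * S) = CCA w g := by
  rw [CCA, CCA]
  refine finsum_congr fun x => ?_
  rw [_root_.mul_inv_rev, mul_assoc, ss_Sinv_mul]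

theorem CCA_mul_TS (w : SL(2, ℤ) → A) (hw : ∀ x, w (x * S) = - w x) (g : SL(2, ℤ)) :
    CCA w (g * (T * S)) = CCA w g + (4 : ℤ) • (w (g * (T * S)) - w g) := by
  have hneg : ∀ x, w (-x) = w x := by
    intro x
    have h1 := hw (x * S)
    rw [hw x, neg_neg, mul_assoc, Fermat.Agent.S16.Farey.S_mul_S, mul_neg, mul_one] at h1
    exact h1
  have e1 : CCA w (g * (T * S)) = CCA w g +
      ∑ᶠ x : SL(2, ℤ), (ss ((g * (T * S))⁻¹ * x) - ss (g⁻¹ * x)) • w x := by
    have hf1 := ss_finite_smul w g⁻¹ 1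
    have hf2 := ss_finite_smul w (g * (T * S))⁻¹ g⁻¹
    simp only [one_mul] at hf1
    rw [CCA, CCA, ← finsum_add_distrib hf1 hf2]
    exact finsum_congr fun x => by rw [← add_smul]; congr 1; ring
  have e2 : ∑ᶠ x : SL(2, ℤ), (ss ((g * (T * S))⁻¹ * x) - ss (g⁻¹ * x)) • w x =
      ∑ᶠ y : SL(2, ℤ), dl y • w (g * y) := by
    rw [← finsum_comp_equiv (Equiv.mulLeft g)]
    refine finsum_congr fun y => ?_
    rw [Equiv.coe_mulLeft, _root_.mul_inv_rev, mul_assoc, inv_mul_cancel_left, dl]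
  have e3 : ∑ᶠ y : SL(2, ℤ), dl y • w (g * y) = (4 : ℤ) • (w (g * (T * S)) - w g) := by
    rw [finsum_eq_sum_of_support_subset (s := L8)]
    · have hT : w (g * T) = - w (g * (T * S)) := by
        have h1 := hw (g * (T * S))
        rw [mul_assoc, mul_assoc, Fermat.Agent.S16.Farey.S_mul_S, mul_neg, mul_one, mul_neg,
          hneg] at h1
        exact h1
      have hsum : ∀ F : SL(2, ℤ) → A, ∑ x ∈ L8, F x =
          F 1 + (F (-1) + (F S + (F (-S) + (F (T * S) + (F (-(T * S)) + (F T + F (-T))))))) := by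
        intro F
        rw [L8, Finset.sum_insert, Finset.sum_insert, Finset.sum_insert, Finset.sum_insert,
          Finset.sum_insert, Finset.sum_insert, Finset.sum_insert, Finset.sum_singleton]
        all_goals decide
      rw [hsum, dl_neg, dl_neg, dl_neg, dl_neg, dl_one, dl_S, dl_TS, dl_T]
      simp only [mul_neg, mul_one, hneg, hw, hT, neg_smul, one_smul]
      rw [show (4 : ℤ) = 1 + 1 + 1 + 1 by norm_num]
      simp only [add_smul, one_smul]
      abel
    · intro y hy
      rw [Function.mem_support] at hy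
      exact support_dl y fun h => hy (by rw [h, zero_smul])
  rw [e1, e2, e3]

theorem CCA_eq (P : SL(2, ℤ) → A) (hP : ∀ x, P (x * (T * S)) = P x) (g : SL(2, ℤ)) :
    CCA (fun x => P x - P (x * S)) g = -((4 : ℤ) • (P g + P (g * S))) +
      (4 : ℤ) • (P 1 + P (1 * S)) := by
  have hPneg : ∀ x, P (-x) = P x := by
    intro x
    have h3 : P (x * (T * S) ^ 3) = P x := by
      have h4 : x * (T * S) ^ 3 = x * (T * S) * (T * S) * (T * S) := by
        rw [pow_succ, pow_succ, pow_one]; simp only [mul_assoc]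
      rw [h4, hP, hP, hP]
    rw [Fermat.Agent.S16.TS_pow_three, mul_neg, mul_one] at h3
    exact h3
  have hw : ∀ x, (fun x => P x - P (x * S)) (x * S) = - (fun x => P x - P (x * S)) x := by
    intro x
    simp only [mul_assoc, Fermat.Agent.S16.Farey.S_mul_S, mul_neg, mul_one, hPneg]
    abel
  -- the difference is right invariant
  have hS : ∀ x, CCA (fun x => P x - P (x * S)) (x * S) + (4 : ℤ) • (P (x * S) + P (x * S * S)) =
      CCA (fun x => P x - P (x * S)) x + (4 : ℤ) • (P x + P (x * S)) := by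
    intro x
    rw [CCA_mul_S]
    simp only [mul_assoc, Fermat.Agent.S16.Farey.S_mul_S, mul_neg, mul_one, hPneg]
    rw [add_comm (P (x * S)) (P x)]
  have hTS : ∀ x, CCA (fun x => P x - P (x * S)) (x * (T * S)) +
      (4 : ℤ) • (P (x * (T * S)) + P (x * (T * S) * S)) =
      CCA (fun x => P x - P (x * S)) x + (4 : ℤ) • (P x + P (x * S)) := by
    intro x
    rw [CCA_mul_TS _ hw, hP]
    simp only [smul_sub, smul_add]
    abel
  have key : ∀ g : SL(2, ℤ), ∀ x, CCA (fun x => P x - P (x * S)) (x * g) +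
      (4 : ℤ) • (P (x * g) + P (x * g * S)) =
      CCA (fun x => P x - P (x * S)) x + (4 : ℤ) • (P x + P (x * S)) := by
    intro g
    induction g using Fermat.Agent.S16.Farey.induction_TS_S with
    | hS => exact hS
    | hTS => exact hTS
    | h1 => intro x; rw [mul_one]
    | hmul g h hg hh => intro x; rw [← mul_assoc, hh, hg]
    | hinv g hg =>
      intro x
      have := hg (x * g⁻¹)
      rw [inv_mul_cancel_right] at this
      exact this.symm
  have h := key g 1
  rw [one_mul, CCA_one, zero_add] at h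
  rw [← h]
  abel

end CCA

section Surj

variable {Γ : Subgroup SL(2, ℤ)} {R : Type*} [CommRing R] {ε : Γ →* Rˣ} {A : Type*}
  [AddCommGroup A] [Module R A]

/-- **Surjectivity**: `8 c` is a combination of values of `Ψ` on Farey edges. -/
theorem exists_eq_sum_PsiA [Fintype (RC Γ)] (hneg : -1 ∈ Γ) (hε1 : ε ⟨-1, hneg⟩ = 1)
    (h2 : IsUnit (2 : R)) (h3 : IsUnit (3 : R) ∨ ∀ x : SL(2, ℤ), x * (T * S) * x⁻¹ ∉ Γ)
    (htriv : ∀ (γ : Γ) (a : A), (ε γ : R) • a = a) (c : Z1 ε A) :
    ∃ w : RC Γ → A, ∀ g : Γ, (8 : ℤ) • c g =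
      ∑ q : RC Γ, Psi Γ (gs q.out *ᵥ e₁) (gs q.out *ᵥ e₂) (Additive.ofMul g) • w q := by
  classical
  obtain ⟨P, hP1', hP2⟩ := TwExact.exists_potential_TS hneg hε1 h2 h3 c
  have hP1 : ∀ (γ : Γ) x, P ((γ : SL(2, ℤ)) * x) = c γ + P x := by
    intro γ x
    rw [hP1', htriv, add_comm]
  set w : SL(2, ℤ) → A := fun x => P x - P (x * S) with hwdef
  have hw : ∀ (γ : Γ) x, w ((γ : SL(2, ℤ)) * x) = w x := by
    intro γ x
    simp only [hwdef]
    rw [mul_assoc, hP1, hP1]; abel
  refine ⟨fun q => - w q.out, fun g => ?_⟩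
  have e1 := CCA_eq P hP2 (g : SL(2, ℤ))
  have e2 : P (g : SL(2, ℤ)) = c g + P 1 := by
    rw [← hP1, mul_one]
  have e3 : P ((g : SL(2, ℤ)) * S) = c g + P (1 * S) := by
    rw [hP1, one_mul]
  have e4 : CCA w (g : SL(2, ℤ)) = -((8 : ℤ) • c g) := by
    rw [hwdef, e1, e2, e3, show (8 : ℤ) = 4 + 4 by norm_num]
    simp only [smul_add, add_smul]
    abel
  have hfin := ss_finite_smul w (g : SL(2, ℤ))⁻¹ 1
  simp only [one_mul] at hfin
  have e5 : CCA w (g : SL(2, ℤ)) = ∑ q : RC Γ, Psi Γ (gs q.out *ᵥ e₁)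
      (gs q.out *ᵥ e₂) (Additive.ofMul g) • w q.out := by
    rw [CCA, ← finsum_comp_equiv (Equiv.ofBijective _ (rc_bijective (Γ := Γ))), finsum_curry,
      finsum_eq_sum_of_fintype]
    · refine Finset.sum_congr rfl fun q _ => ?_
      rw [Psi_apply, IJ]
      have hfs := (fam_gm Γ).finite_support (gs q.out *ᵥ e₁) (gs q.out *ᵥ e₂)
        (gm_det_pos g⁻¹) one_det_pos
      have hms := AddMonoidHom.map_finsum ((smulAddHom ℤ A).flip (w q.out)) hfs
      simp only [AddMonoidHom.flip_apply, smulAddHom_apply] at hms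
      rw [hms]
      refine finsum_congr fun d => ?_
      simp only [Equiv.ofBijective_apply]
      rw [hw]
      congr 2
      · rw [ss_eq_sw, ← Subgroup.coe_inv]
        simp only [sw_mulVec]
        rfl
      · rw [← one_mul ((d : SL(2, ℤ)) * q.out), ss_eq_sw]
        simp only [sw_mulVec]
        rfl
    · exact hfin.preimage ((Equiv.ofBijective _ (rc_bijective (Γ := Γ))).injective.injOn)
  simp only [smul_neg, Finset.sum_neg_distrib]
  rw [← e5, e4, neg_neg]

end Surj

end Fermat.Agent.RTI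

end
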