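import Fermat.Agent.RTI.PsiA
import Fermat.Agent.S41.DualHecke
import Fermat.Agent.TwHecke.Main
import Fermat.Agent.TwExact.Change

/-!
# The classes `Ψ(a, b) ⊗ x` in `H¹(Γ₀(M), A(ε))` when `ε` acts trivially on `A`
-/

set_option autoImplicit false

noncomputable section

namespace Fermat.Agent.RTI

open Matrix ModularGroup CongruenceSubgroup Fermat.Agent.TwHecke
open Fermat.Agent.HeckePar
open Fermat.Agent.S41dual (V2 M2 Psi Psi_add Psi_smul_left Psi_smul_right Psi_gm gm gm_mul gm_inv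
  gm_det RC gs e₁ e₂ g0 gm_g0 gm_dvd)
open Fermat.Agent.S41aux (betaZ)
open scoped MatrixGroups BigOperators

/-- `ε` acts trivially on `A`. -/
def TrivAct {M : ℕ} {R : Type*} [CommRing R] (ε : (ZMod M)ˣ →* Rˣ) (A : Type*) [AddCommGroup A]
    [Module R A] : Prop := ∀ (u : (ZMod M)ˣ) (a : A), ((ε u : Rˣ) : R) • a = a

variable {M : ℕ} {R : Type*} [CommRing R] {ε : (ZMod M)ˣ →* Rˣ}
variable {A : Type*} [AddCommGroup A] [Module R A]

theorem TrivAct.wt (h : TrivAct ε A) (u : (ZMod M)ˣ) (a : A) : wt ε u • a = a := by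
  rw [TwHecke.wt, ← map_inv]
  exact h _ a

theorem TrivAct.infl (h : TrivAct ε A) {M' : ℕ} (hd : M ∣ M') : TrivAct (infl hd ε) A :=
  fun _ a => h _ a

/-- the cocycle `g ↦ Ψ(a, b)(g) • x` -/
def psiZ (h : TrivAct ε A) (a b : V2) (x : A) : ZM M ε A :=
  ⟨fun g => Psi (Gamma0 M) a b (Additive.ofMul g) • x, fun g g' => by
    have h1 : ((chr M ε g : Rˣ) : R) • (Psi (Gamma0 M) a b (Additive.ofMul g') • x) =
      Psi (Gamma0 M) a b (Additive.ofMul g') • x := h _ _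
    rw [h1]
    show Psi (Gamma0 M) a b (Additive.ofMul (g * g')) • x = _
    rw [ofMul_mul, map_add, add_smul]⟩

theorem psiZ_apply (h : TrivAct ε A) (a b : V2) (x : A) (g : Gamma0 M) :
    psiZ h a b x g = Psi (Gamma0 M) a b (Additive.ofMul g) • x := rfl

/-- the class `Ψ(a, b) ⊗ x` -/
def psiH (h : TrivAct ε A) (a b : V2) : A →ₗ[R] HM M ε A where
  toFun x := H1.mk (psiZ h a b x)
  map_add' x y := by
    rw [← H1.mk_add]
    congr 1
    ext g
    rw [Z1.add_apply, psiZ_apply, psiZ_apply, psiZ_apply, smul_add]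
  map_smul' r x := by
    rw [RingHom.id_apply, ← H1.mk_smul]
    congr 1
    ext g
    rw [Z1.smul_apply, psiZ_apply, psiZ_apply, smul_comm]

theorem psiH_apply (h : TrivAct ε A) (a b : V2) (x : A) :
    psiH h a b x = H1.mk (psiZ h a b x) := rfl

theorem psiH_congr (h : TrivAct ε A) {a b a' b' : V2}
    (e : Psi (Gamma0 M) a b = Psi (Gamma0 M) a' b') (x : A) : psiH h a b x = psiH h a' b' x := by
  rw [psiH_apply, psiH_apply]
  congr 1
  ext g
  rw [psiZ_apply, psiZ_apply, e]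

theorem psiH_add (h : TrivAct ε A) {a b c : V2} (ha : a ≠ 0) (hb : b ≠ 0) (hc : c ≠ 0) (x : A) :
    psiH h a b x + psiH h b c x = psiH h a c x := by
  rw [psiH_apply, psiH_apply, psiH_apply, ← H1.mk_add]
  congr 1
  ext g
  rw [Z1.add_apply, psiZ_apply, psiZ_apply, psiZ_apply, ← add_smul, ← AddMonoidHom.add_apply,
    Psi_add ha hb hc]

theorem psiH_smul_left (h : TrivAct ε A) {n : ℤ} (hn : n ≠ 0) (a b : V2) (x : A) :
    psiH h (n • a) b x = psiH h a b x := psiH_congr h (Psi_smul_left hn a b) x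

theorem psiH_smul_right (h : TrivAct ε A) {n : ℤ} (hn : n ≠ 0) (a b : V2) (x : A) :
    psiH h a (n • b) x = psiH h a b x := psiH_congr h (Psi_smul_right hn a b) x

theorem psiH_gm (h : TrivAct ε A) (γ : Gamma0 M) (a b : V2) (x : A) :
    psiH h (gm (Gamma0 M) γ *ᵥ a) (gm (Gamma0 M) γ *ᵥ b) x = psiH h a b x :=
  psiH_congr h (Psi_gm γ a b) x

/-- Hecke operators on `Ψ(a, b) ⊗ x`. -/
theorem heckeH_psiH (h : TrivAct ε A) {ℓ : ℕ} [Fact ℓ.Prime] (hℓM : ¬ ℓ ∣ M) (a b : V2) (x : A) :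
    heckeH M ℓ ε A (psiH h a b x) =
      ∑ y : HIdx M ℓ, psiH h (intRep ℓ y.1 *ᵥ a) (intRep ℓ y.1 *ᵥ b) x := by
  have e : heckeZ M ℓ ε A (psiZ h a b x) =
      ∑ y : HIdx M ℓ, psiZ h (intRep ℓ y.1 *ᵥ a) (intRep ℓ y.1 *ᵥ b) x := by
    ext g
    rw [heckeZ_apply]
    have h1 : (∑ y : HIdx M ℓ, psiZ h (intRep ℓ y.1 *ᵥ a) (intRep ℓ y.1 *ᵥ b) x : ZM M ε A) g =
        ∑ y : HIdx M ℓ, psiZ h (intRep ℓ y.1 *ᵥ a) (intRep ℓ y.1 *ᵥ b) x g := by
      let f : ZM M ε A →ₗ[R] A :=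
        { toFun := fun c => c g
          map_add' := fun c d => rfl
          map_smul' := fun r c => rfl }
      exact map_sum f _ _
    rw [h1]
    have h2 := DFunLike.congr_fun (Fermat.Agent.S41dual.addTransfer_Psi (N := M) (ℓ := ℓ) hℓM a b)
      (Additive.ofMul g)
    rw [AddMonoidHom.finsetSum_apply] at h2
    have h3 : ∑ y : HIdx M ℓ, Psi (Gamma0 M) a b (Additive.ofMul ((heckeSys M ℓ).coc g y)) =
        ∑ y : HIdx M ℓ, Psi (Gamma0 M) (intRep ℓ y.1 *ᵥ a) (intRep ℓ y.1 *ᵥ b)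
          (Additive.ofMul g) := by
      rw [← h2]
      rfl
    calc ∑ y : HIdx M ℓ, wt ε (hu M ℓ y) • psiZ h a b x ((heckeSys M ℓ).coc g y)
        = ∑ y : HIdx M ℓ, Psi (Gamma0 M) a b (Additive.ofMul ((heckeSys M ℓ).coc g y)) • x :=
          Finset.sum_congr rfl fun y _ => h.wt _ _
      _ = (∑ y : HIdx M ℓ, Psi (Gamma0 M) a b (Additive.ofMul ((heckeSys M ℓ).coc g y))) • x :=
          Finset.sum_smul.symm
      _ = (∑ y : HIdx M ℓ, Psi (Gamma0 M) (intRep ℓ y.1 *ᵥ a) (intRep ℓ y.1 *ᵥ b)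
          (Additive.ofMul g)) • x := by rw [h3]
      _ = _ := Finset.sum_smul
  rw [psiH_apply, heckeH_mk, e]
  exact map_sum (H1.mkQ (chr M ε) A) _ _

section Conv

variable {Γ Γ' : Subgroup SL(2, ℤ)} {X : Type*}

/-- conversion of correspondences -/
def convC (S : TwHecke.Corr Γ Γ' X) (r : X → M2) (hS : IsRep S r) (n : ℤ) (hn : 0 < n)
    (hdet : ∀ x, (r x).det = n) : Fermat.Agent.S41dual.Corr Γ Γ' X where
  mat := r
  n := n
  pos := hn
  det := hdet
  act := S.act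
  coc := S.coc
  spec := hS.spec
  act_one := S.act_one
  act_mul := S.act_mul
  coc_mul := S.coc_mul

theorem convC_pull [Fintype X] (S : TwHecke.Corr Γ Γ' X) (r : X → M2) (hS : IsRep S r) (n : ℤ)
    (hn : 0 < n) (hdet : ∀ x, (r x).det = n) (φ : Additive Γ →+ ℤ) (g : Γ') :
    (convC S r hS n hn hdet).pull φ (Additive.ofMul g) = ∑ x, φ (Additive.ofMul (S.coc g x)) := rfl

end Conv

section Trace

variable {q : ℕ} (hq : q.Prime) (hM : ¬ q ∣ M)

/-- the trace correspondence -/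
theorem sum_trCorr_Psi [NeZero q] (a b : V2) (g : Gamma0 M) :
    ∑ x, Psi (Gamma0 (M * q)) a b (Additive.ofMul ((trCorr hq hM).coc g x)) =
      Psi (Gamma0 M) a b (Additive.ofMul g) := by
  have h := (convC (trCorr hq hM) (kRep M q) (trCorr_isRep hq hM) 1 one_pos
    (det_kRep M q)).pull_Psi_single (fun x y c h => kRep_inj hq hM x y c h) none (by
      intro x d
      refine ⟨(kG M q x)⁻¹ * Subgroup.inclusion (Gamma0_le (dvd_mul_right M q)) d, ?_⟩
      show (kRep M q x).adjugate * gm (Gamma0 (M * q)) d = gm (Gamma0 M) _ *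
        (kRep M q none).adjugate
      rw [kRep_none, Matrix.adjugate_one, Matrix.mul_one, gm_mul, gm_inv]
      rfl) a b
  have h1 := DFunLike.congr_fun h (Additive.ofMul g)
  rw [convC_pull] at h1
  rw [h1]
  show Psi (Gamma0 M) ((kRep M q none).adjugate *ᵥ a) ((kRep M q none).adjugate *ᵥ b) _ = _
  rw [kRep_none, Matrix.adjugate_one, Matrix.one_mulVec, Matrix.one_mulVec]

theorem trd_psiH [NeZero q] (h : TrivAct ε A) (a b : V2) (x : A) :
    trd hq hM ε A (psiH (h.infl (dvd_mul_right M q)) a b x) = psiH h a b x := by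
  have e : (trCorr hq hM).Ztr A (tr_isWeight hq hM ε)
      (psiZ (h.infl (dvd_mul_right M q)) a b x) = psiZ h a b x := by
    ext g
    rw [Corr.Ztr_apply, psiZ_apply, ← sum_trCorr_Psi hq hM a b g, Finset.sum_smul]
    refine Finset.sum_congr rfl fun y _ => ?_
    rw [one_smul]
    rfl
  rw [psiH_apply, psiH_apply, ← e]
  rfl

/-- the element `W² / q` of `Γ₀(M q)` -/
def wδ : Gamma0 (M * q) := mkG (M * q) (q + wb hq hM * M) (wb hq hM * (1 + wd hq hM))
  (M * q * (1 + wd hq hM)) (M * wb hq hM + q * wd hq hM ^ 2)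
  (by
    have hw := wbd hq hM
    linear_combination (q * wd hq hM - M * wb hq hM + 1) * hw)
  (by push_cast; exact dvd_mul_right _ _)

theorem wδ_mul : gm (Gamma0 (M * q)) (wδ hq hM) * (wMat hq hM).adjugate = wMat hq hM := by
  have hw := wbd hq hM
  rw [wMat, Matrix.adjugate_fin_two_of]
  show !![(q : ℤ) + wb hq hM * M, wb hq hM * (1 + wd hq hM);
    M * q * (1 + wd hq hM), M * wb hq hM + q * wd hq hM ^ 2] * _ = _
  rw [Matrix.mul_fin_two]
  ext i j
  fin_cases i <;> fin_cases j <;> simp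
  · linear_combination (q : ℤ) * hw
  · linear_combination wb hq hM * hw
  · linear_combination ((M : ℤ) * q) * hw
  · linear_combination (q * wd hq hM) * hw

theorem sum_wCorr_Psi (a b : V2) (g : Gamma0 (M * q)) :
    Psi (Gamma0 (M * q)) a b (Additive.ofMul ((wCorr hq hM).coc g ())) =
      Psi (Gamma0 (M * q)) ((wMat hq hM).adjugate *ᵥ a) ((wMat hq hM).adjugate *ᵥ b)
        (Additive.ofMul g) := by
  have h := (convC (wCorr hq hM) (fun _ => wMat hq hM) (wCorr_isRep hq hM) q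
    (by exact_mod_cast hq.pos) (fun _ => det_wMat hq hM)).pull_Psi_single (fun _ _ _ _ => rfl) () (by
      intro x d
      refine ⟨(wδ hq hM)⁻¹ * wHom hq hM d * wδ hq hM, ?_⟩
      show (wMat hq hM).adjugate * gm (Gamma0 (M * q)) d = gm (Gamma0 (M * q)) _ *
        (wMat hq hM).adjugate
      have h1 : wMat hq hM * gm (Gamma0 (M * q)) d = gm (Gamma0 (M * q)) (wHom hq hM d) *
        wMat hq hM := wHom_spec hq hM d
      rw [gm_mul, Matrix.mul_assoc, wδ_mul, gm_mul, Matrix.mul_assoc, ← h1]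
      nth_rewrite 2 [← wδ_mul hq hM]
      rw [Matrix.mul_assoc, ← Matrix.mul_assoc (gm _ _⁻¹), ← gm_mul, inv_mul_cancel,
        Fermat.Agent.S41dual.gm_one, Matrix.one_mul]) a b
  have h1 := DFunLike.congr_fun h (Additive.ofMul g)
  rw [convC_pull, Fintype.sum_unique] at h1
  exact h1

theorem trB_psiH [NeZero q] (h : TrivAct ε A) (a b : V2) (x : A) :
    trB ε A hq hM (psiH (h.infl (dvd_mul_right M q)) a b x) =
      psiH h (betaZ q *ᵥ a) (betaZ q *ᵥ b) x := by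
  have e : wq hq hM ε A (psiH (h.infl (dvd_mul_right M q)) a b x) =
      psiH (h.infl (dvd_mul_right M q)) ((wMat hq hM).adjugate *ᵥ a)
        ((wMat hq hM).adjugate *ᵥ b) x := by
    have e : (wCorr hq hM).Ztr A (w_isWeight hq hM ε (wt ε (unitOf M q)))
        (psiZ (h.infl (dvd_mul_right M q)) a b x) = psiZ (h.infl (dvd_mul_right M q))
          ((wMat hq hM).adjugate *ᵥ a) ((wMat hq hM).adjugate *ᵥ b) x := by
      ext g
      rw [Corr.Ztr_apply, psiZ_apply, ← sum_wCorr_Psi hq hM a b g]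
      rw [Fintype.sum_unique, h.wt]
      rfl
    rw [psiH_apply, psiH_apply, ← e]
    rfl
  rw [trB_apply, e, trd_psiH]
  -- `adj (W) = γ β`
  have hw := wbd hq hM
  have hγ : (wMat hq hM).adjugate = gm (Gamma0 M) (mkG M (wd hq hM) (-wb hq hM) (-M) q
      (by linear_combination hw) (by simp)) * betaZ q := by
    rw [wMat, Matrix.adjugate_fin_two_of, betaZ]
    show _ = !![wd hq hM, -wb hq hM; -(M : ℤ), (q : ℤ)] * _
    rw [Matrix.mul_fin_two]
    ext i j
    fin_cases i <;> fin_cases j <;> simp [mul_comm]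
  rw [hγ, ← Matrix.mulVec_mulVec, ← Matrix.mulVec_mulVec, psiH_gm]

end Trace

section Span

theorem neg_one_mem (M : ℕ) : (-1 : SL(2, ℤ)) ∈ Gamma0 M := by
  rw [Gamma0_mem]
  simp

theorem chr_neg_one (hε : ε (-1) = 1) : chr M ε ⟨-1, neg_one_mem M⟩ = 1 := by
  show ε (aMap M ⟨-1, neg_one_mem M⟩) = 1
  rw [← hε]
  congr 1
  apply Units.ext
  rw [val_aMap]
  simp

theorem e₁_ne : e₁ ≠ 0 := by
  intro h0
  have := congrFun h0 0
  simp [e₁] at this

theorem e₂_ne : e₂ ≠ 0 := by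
  intro h0
  have := congrFun h0 1
  simp [e₂] at this

theorem finite_RC' (M : ℕ) [NeZero M] : Finite (RC (Gamma0 M)) := by
  have h : (Gamma0 M).FiniteIndex := inferInstance
  exact Finite.of_equiv _ (QuotientGroup.quotientRightRelEquivQuotientLeftRel (Gamma0 M)).symm

/-- The classes `Ψ(a, b) ⊗ x` span. -/
theorem exists_eq_sum_psiH [NeZero M] (h : TrivAct ε A) (hε : ε (-1) = 1)
    (h2 : IsUnit (2 : R)) (h3 : IsUnit (3 : R) ∨ ∀ x : SL(2, ℤ), x * (T * S) * x⁻¹ ∉ Gamma0 M)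
    (x : HM M ε A) : ∃ (ι : Type) (_ : Fintype ι) (u v : ι → V2) (w : ι → A), (∀ i, u i ≠ 0) ∧
      (∀ i, v i ≠ 0) ∧ (8 : ℤ) • x = ∑ i, psiH h (u i) (v i) (w i) := by
  have := finite_RC' M
  have := Fintype.ofFinite (RC (Gamma0 M))
  induction x using H1.ind with
  | h c =>
  obtain ⟨w, hw⟩ := exists_eq_sum_PsiA (neg_one_mem M) (chr_neg_one hε) h2 h3
    (fun γ a => h _ a) c
  have hd : ∀ i : RC (Gamma0 M), (gs i.out).det ≠ 0 := fun i => by
    rw [Fermat.Agent.S41dual.fam_gs.det]; exact one_ne_zero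
  refine ⟨RC (Gamma0 M), inferInstance, fun i => gs i.out *ᵥ e₁, fun i => gs i.out *ᵥ e₂, w,
    fun i => Fermat.Agent.S41dual.mulVec_ne_zero (hd i) e₁_ne,
    fun i => Fermat.Agent.S41dual.mulVec_ne_zero (hd i) e₂_ne, ?_⟩
  have e : (8 : ℤ) • c = ∑ i : RC (Gamma0 M), psiZ h (gs i.out *ᵥ e₁) (gs i.out *ᵥ e₂) (w i) := by
    ext g
    let f : ZM M ε A →ₗ[R] A :=
      { toFun := fun c => c g
        map_add' := fun c d => rfl
        map_smul' := fun r c => rfl }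
    have e1 : ((8 : ℤ) • c : ZM M ε A) g = (8 : ℤ) • c g := map_zsmul f 8 c
    have e2 : (∑ i : RC (Gamma0 M), psiZ h (gs i.out *ᵥ e₁) (gs i.out *ᵥ e₂) (w i) : ZM M ε A) g =
      ∑ i : RC (Gamma0 M), psiZ h (gs i.out *ᵥ e₁) (gs i.out *ᵥ e₂) (w i) g := map_sum f _ _
    rw [e1, e2, hw g]
    rfl
  have e3 : (8 : ℤ) • (H1.mk c : HM M ε A) = H1.mk ((8 : ℤ) • c) :=
    (map_zsmul (H1.mkQ (chr M ε) A) 8 c).symm
  rw [e3, e]
  exact map_sum (H1.mkQ (chr M ε) A) _ _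

theorem eq_zero_of_psiH [NeZero M] (h : TrivAct ε A) (hε : ε (-1) = 1)
    (h2 : IsUnit (2 : R)) (h3 : IsUnit (3 : R) ∨ ∀ x : SL(2, ℤ), x * (T * S) * x⁻¹ ∉ Gamma0 M)
    {B : Type*} [AddCommGroup B] [Module R B] (Y : HM M ε A →ₗ[R] B)
    (hY : ∀ u v, u ≠ 0 → v ≠ 0 → ∀ x, Y (psiH h u v x) = 0) : Y = 0 := by
  refine LinearMap.ext fun x => ?_
  obtain ⟨ι, _, u, v, w, hu, hv, he⟩ := exists_eq_sum_psiH h hε h2 h3 x
  have h1 := congrArg Y he
  rw [map_zsmul, map_sum, Finset.sum_eq_zero (fun i _ => hY _ _ (hu i) (hv i) _),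
    ← Int.cast_smul_eq_zsmul R] at h1
  have h8 : IsUnit (((8 : ℤ) : R)) := by
    have : (((8 : ℤ) : R)) = 2 ^ 3 := by norm_num
    rw [this]
    exact h2.pow 3
  exact (h8.smul_eq_zero).mp h1

end Span

end Fermat.Agent.RTI

end
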