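import Fermat.Agent.RTI.NakR
import Fermat.Agent.RTI.Triv
import Fermat.Agent.S41.NewClass

/-!
# Surjectivity of the pair of traces on the non-Eisenstein part of `H¹(Γ₀(M v), A(ε))`
-/

set_option autoImplicit false

noncomputable section

namespace Fermat.Agent.RTI

open Matrix ModularGroup CongruenceSubgroup IsLocalRing Fermat.Agent.TwHecke Fermat.Agent.TwExact
open Fermat.Agent.HeckePar
open Fermat.Agent.S41dual (V2 IntSymb ihara_int gm)
open Fermat.Agent.S41aux (betaZ)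
open scoped MatrixGroups BigOperators

/-- The strong non-Eisenstein condition. -/
structure SNE {k : Type*} [Field k] (S : Set ℕ) (θ : PIdx S → k) : Prop where
  ne1 : ∀ D : ℕ, 0 < D → ∃ ℓ : PIdx S, (D : ℤ) ∣ ((ℓ.1 : ℕ) : ℤ) - 1 ∧ θ ℓ ≠ ((ℓ.1 : ℕ) : k) + 1
  ne2 : ∀ D : ℕ, 0 < D → ∃ ℓ : PIdx S, ¬ (ℓ.1 : ℕ) ∣ D ∧
    (θ ℓ) ^ 2 ≠ (((ℓ.1 : ℕ) : k) + 1) ^ 2

section

variable {k : Type*} [Field k] {S : Set ℕ} (θ : PIdx S → k)

open scoped Classical in
/-- the eigenvalues as a function of natural numbers -/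
def aOf (ℓ : ℕ) : k := if h : ℓ.Prime ∧ ℓ ∉ S then θ ⟨⟨ℓ, h.1⟩, h.2⟩ else 0

theorem aOf_eq (ℓ : PIdx S) : aOf θ (ℓ.1 : ℕ) = θ ℓ := by
  rw [aOf, dif_pos ⟨ℓ.1.2, ℓ.2⟩]
  rfl

theorem SNE.nonEis {θ : PIdx S → k} (h : SNE S θ) {M : ℕ} (hM : M ≠ 0) :
    S41aux.NonEis (fun ℓ => ℓ ∉ S ∧ ¬ ℓ ∣ M) (aOf θ) := by
  refine ⟨fun D hD => ?_, fun D hD => ?_⟩
  · obtain ⟨ℓ, h1, h2⟩ := h.ne1 (D * M) (Nat.mul_pos hD (Nat.pos_of_ne_zero hM))
    push_cast at h1
    refine ⟨ℓ.1, ℓ.1.2, ⟨ℓ.2, fun hd => ?_⟩, (Dvd.intro _ rfl).trans h1, ?_⟩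
    · have h3 : ((ℓ.1 : ℕ) : ℤ) ∣ (M : ℤ) := by exact_mod_cast hd
      have h4 : ((ℓ.1 : ℕ) : ℤ) ∣ ((ℓ.1 : ℕ) : ℤ) - 1 := (h3.trans (Dvd.intro_left _ rfl)).trans h1
      have h5 : ((ℓ.1 : ℕ) : ℤ) ∣ 1 := by
        have := dvd_sub (dvd_refl ((ℓ.1 : ℕ) : ℤ)) h4
        simpa using this
      have h6 : (ℓ.1 : ℕ) ∣ 1 := by exact_mod_cast h5
      exact ℓ.1.2.one_lt.ne' (Nat.dvd_one.mp h6)
    · rw [aOf_eq]
      exact h2
  · obtain ⟨ℓ, h1, h2⟩ := h.ne2 (D * M) (Nat.mul_pos hD (Nat.pos_of_ne_zero hM))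
    refine ⟨ℓ.1, ℓ.1.2, ⟨ℓ.2, fun hd => h1 (hd.mul_left _)⟩, fun hd => h1 (hd.mul_right _), ?_⟩
    rw [aOf_eq]
    exact h2

end

variable {M v : ℕ} [NeZero M] [NeZero v] {R : Type} [CommRing R] [IsLocalRing R]
  {ε : (ZMod M)ˣ →* Rˣ} {S : Set ℕ} {θ : PIdx S → ResidueField R}
variable (hv : v.Prime) (hvM : ¬ v ∣ M)

section Maps

variable (A : Type) [AddCommGroup A] [Module R A]

theorem trd_hop (hvS : v ∈ S) (i : PIdx S)
    (x : HM (M * v) (infl (dvd_mul_right M v) ε) A) :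
    trd hv hvM ε A (hop (M * v) (infl (dvd_mul_right M v) ε) A S i x) =
      hop M ε A S i (trd hv hvM ε A x) := by
  have : Fact (i.1 : ℕ).Prime := ⟨i.1.2⟩
  exact trd_heckeH (p := (i.1 : ℕ)) ε hv hvM (show (i.1 : ℕ) ≠ v from fun h => i.2 (by rw [h]; exact hvS)) x

theorem trB_hop (hvS : v ∈ S) (i : PIdx S)
    (x : HM (M * v) (infl (dvd_mul_right M v) ε) A) :
    trB ε A hv hvM (hop (M * v) (infl (dvd_mul_right M v) ε) A S i x) =
      hop M ε A S i (trB ε A hv hvM x) := by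
  have : Fact (i.1 : ℕ).Prime := ⟨i.1.2⟩
  exact trB_heckeH (p := (i.1 : ℕ)) ε hv hvM (show (i.1 : ℕ) ≠ v from fun h => i.2 (by rw [h]; exact hvS)) x

variable (S θ)

/-- The trace on the `𝔪`-parts. -/
def trdHm (hvS : v ∈ S) : Hm (M * v) (infl (dvd_mul_right M v) ε) A S θ →ₗ[R] Hm M ε A S θ :=
  (trd hv hvM ε A).restrict fun _ hx => map_mem_mpart _ _ (trd hv hvM ε A)
    (fun i x => trd_hop hv hvM A hvS i x) hx

/-- The second trace on the `𝔪`-parts. -/
def trBHm (hvS : v ∈ S) : Hm (M * v) (infl (dvd_mul_right M v) ε) A S θ →ₗ[R] Hm M ε A S θ :=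
  (trB ε A hv hvM).restrict fun _ hx => map_mem_mpart _ _ (trB ε A hv hvM)
    (fun i x => trB_hop hv hvM A hvS i x) hx

@[simp] theorem coe_trdHm (hvS : v ∈ S) (x : Hm (M * v) (infl (dvd_mul_right M v) ε) A S θ) :
    (trdHm S θ hv hvM A hvS x : HM M ε A) = trd hv hvM ε A x.1 := rfl

@[simp] theorem coe_trBHm (hvS : v ∈ S) (x : Hm (M * v) (infl (dvd_mul_right M v) ε) A S θ) :
    (trBHm S θ hv hvM A hvS x : HM M ε A) = trB ε A hv hvM x.1 := rfl

end Maps

section Bottom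

variable {p : ℕ} [CharP (ResidueField R) p]

/-- An eigenfunctional killing the traces is zero. -/
theorem functional_eq_zero (hp : p.Prime) (hp2 : p ≠ 2) (hne : SNE S θ)
    (htriv : TrivAct ε (ResidueField R)) (hε : ε (-1) = 1) (h2 : IsUnit (2 : R))
    (h3 : IsUnit (3 : R) ∨ ∀ x : SL(2, ℤ), x * (T * ModularGroup.S) * x⁻¹ ∉ Gamma0 M)
    (Y : HM M ε (ResidueField R) × HM M ε (ResidueField R) →ₗ[R] ResidueField R)
    (hY : ∀ (i : PIdx S) x y, Y (hop M ε (ResidueField R) S i x, hop M ε (ResidueField R) S i y) = θ i * Y (x, y))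
    (hker : ∀ z, Y (trd hv hvM ε (ResidueField R) z, trB ε (ResidueField R) hv hvM z) = 0) : Y = 0 := by
  have hM0 : M ≠ 0 := NeZero.ne M
  set Y₁ : HM M ε (ResidueField R) →ₗ[R] ResidueField R := Y.comp (LinearMap.inl R _ _) with hY₁
  set Y₂ : HM M ε (ResidueField R) →ₗ[R] ResidueField R := Y.comp (LinearMap.inr R _ _) with hY₂
  have hsplit : ∀ x y, Y (x, y) = Y₁ x + Y₂ y := by
    intro x y
    rw [hY₁, hY₂, LinearMap.comp_apply, LinearMap.comp_apply, ← map_add]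
    simp
  have hT1 : ∀ (i : PIdx S) x, Y₁ (hop M ε (ResidueField R) S i x) = θ i * Y₁ x := by
    intro i x
    have h := hY i x 0
    rw [map_zero, hsplit, hsplit, map_zero, add_zero, add_zero] at h
    exact h
  have hT2 : ∀ (i : PIdx S) x, Y₂ (hop M ε (ResidueField R) S i x) = θ i * Y₂ x := by
    intro i x
    have h := hY i 0 x
    rw [map_zero, hsplit, hsplit, map_zero, zero_add, zero_add] at h
    exact h
  -- the symbols
  have hint : ∀ Z : HM M ε (ResidueField R) →ₗ[R] ResidueField R,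
      IntSymb M (fun a b => Z (psiH htriv a b 1)) := by
    intro Z
    refine ⟨fun u v w hu hv hw => ?_, fun t u v ht => ?_, fun t u v ht => ?_, fun g u v => ?_⟩
    · show Z (psiH htriv u v 1) + Z (psiH htriv v w 1) = Z (psiH htriv u w 1)
      rw [← map_add, psiH_add htriv hu hv hw]
    · show Z (psiH htriv (t • u) v 1) = Z (psiH htriv u v 1)
      rw [psiH_smul_left htriv ht]
    · show Z (psiH htriv u (t • v) 1) = Z (psiH htriv u v 1)
      rw [psiH_smul_right htriv ht]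
    · show Z (psiH htriv (gm (Gamma0 M) g *ᵥ u) (gm (Gamma0 M) g *ᵥ v) 1) = Z (psiH htriv u v 1)
      rw [psiH_gm htriv]
  have hhecke : ∀ (Z : HM M ε (ResidueField R) →ₗ[R] ResidueField R)
      (_ : ∀ (i : PIdx S) x, Z (hop M ε (ResidueField R) S i x) = θ i * Z x) (ℓ : ℕ) [Fact ℓ.Prime],
      (ℓ ∉ S ∧ ¬ ℓ ∣ M) → ∀ u w : V2, u ≠ 0 → w ≠ 0 →
      ∑ x : HIdx M ℓ, (fun a b => Z (psiH htriv a b 1)) (intRep ℓ x.1 *ᵥ u)
        (intRep ℓ x.1 *ᵥ w) = aOf θ ℓ * (fun a b => Z (psiH htriv a b 1)) u w := by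
    intro Z hZ ℓ hℓ hS u w _ _
    show ∑ x : HIdx M ℓ, Z (psiH htriv (intRep ℓ x.1 *ᵥ u) (intRep ℓ x.1 *ᵥ w) 1) =
      aOf θ ℓ * Z (psiH htriv u w 1)
    rw [← map_sum, ← heckeH_psiH htriv hS.2]
    have h1 := hZ ⟨⟨ℓ, hℓ.out⟩, hS.1⟩ (psiH htriv u w 1)
    rw [← aOf_eq θ ⟨⟨ℓ, hℓ.out⟩, hS.1⟩] at h1
    exact h1
  have hI := ihara_int (N := M) (q := v) (F := ResidueField R) (p := p)
    (S := fun ℓ => ℓ ∉ S ∧ ¬ ℓ ∣ M) (a := aOf θ) hp hp2 hv hvM
    (fun ℓ h => h.2) (hne.nonEis hM0) (hint Y₁) (hint Y₂) (hhecke Y₁ hT1) (hhecke Y₂ hT2)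
    (fun a b _ _ => by
      have h := hker (psiH (htriv.infl (dvd_mul_right M v)) a b 1)
      rw [trd_psiH, trB_psiH, hsplit] at h
      exact h)
  have hzero : ∀ Z : HM M ε (ResidueField R) →ₗ[R] ResidueField R,
      (∀ u v : V2, u ≠ 0 → v ≠ 0 → Z (psiH htriv u v 1) = 0) → Z = 0 := by
    intro Z hZ
    refine eq_zero_of_psiH htriv hε h2 h3 Z fun u v hu hv x => ?_
    obtain ⟨r, rfl⟩ := residue_surjective x
    have h1 : (residue R r : ResidueField R) = r • (1 : ResidueField R) := by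
      rw [Algebra.smul_def, mul_one]; rfl
    rw [h1, map_smul, map_smul, hZ u v hu hv, smul_zero]
  refine LinearMap.ext fun x => ?_
  obtain ⟨x, y⟩ := x
  rw [hsplit, hzero Y₁ hI.1, hzero Y₂ hI.2]
  simp

variable [IsNoetherianRing R] [IsAdicComplete (maximalIdeal R) R]

/-- **Surjectivity over the residue field.** -/
theorem surj_bottom (hvS : v ∈ S) (hp : p.Prime) (hp2 : p ≠ 2) (hne : SNE S θ)
    (htriv : TrivAct ε (ResidueField R)) (hε : ε (-1) = 1) (h2 : IsUnit (2 : R))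
    (h3 : IsUnit (3 : R) ∨ ∀ x : SL(2, ℤ), x * (T * ModularGroup.S) * x⁻¹ ∉ Gamma0 M)
    (x y : Hm M ε (ResidueField R) S θ) :
    ∃ z : Hm (M * v) (infl (dvd_mul_right M v) ε) (ResidueField R) S θ,
      trdHm S θ hv hvM _ hvS z = x ∧ trBHm S θ hv hvM _ hvS z = y := by
  have : NeZero (M * v) := ⟨mul_ne_zero (NeZero.ne M) hv.ne_zero⟩
  have := fg_Gamma0 M
  have hfinA : Module.Finite R (ResidueField R) :=
    Module.Finite.of_surjective (Algebra.linearMap R (ResidueField R)) residue_surjective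
  have : Module.Finite R (HM M ε (ResidueField R)) := finite_H1 _ _
  -- the pair
  have hTp : ∀ i j : PIdx S, Commute
      (LinearMap.prodMap (hop M ε (ResidueField R) S i) (hop M ε (ResidueField R) S i))
      (LinearMap.prodMap (hop M ε (ResidueField R) S j) (hop M ε (ResidueField R) S j)) := by
    intro i j
    refine LinearMap.ext fun x => ?_
    have h := hop_commute M ε (ResidueField R) S i j
    exact Prod.ext (LinearMap.congr_fun h x.1) (LinearMap.congr_fun h x.2)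
  obtain ⟨t, ht1, ht2⟩ := exists_cev_mem_range (θ := θ) hTp
    (T' := hop (M * v) (infl (dvd_mul_right M v) ε) (ResidueField R) S)
    (LinearMap.prod (trd hv hvM ε (ResidueField R)) (trB ε (ResidueField R) hv hvM))
    (fun i x => Prod.ext (trd_hop hv hvM _ hvS i x) (trB_hop hv hvM _ hvS i x))
    (fun Y hY1 hY2 => functional_eq_zero hv hvM hp hp2 hne htriv hε h2 h3 Y
      (fun i x y => hY1 i (x, y)) hY2)
  obtain ⟨e, he⟩ := exists_isIdem_Hm (ResidueField R) ε θ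
  obtain ⟨e', he'⟩ := exists_isIdem_Hm (ResidueField R) (infl (dvd_mul_right M v) ε) θ
  have hpre : ∀ x ∈ Hm M ε (ResidueField R) S θ, ∃ x', cev (hop M ε (ResidueField R) S)
      (hop_commute M ε (ResidueField R) S) e' (cev (hop M ε (ResidueField R) S)
      (hop_commute M ε (ResidueField R) S) t x') = x := by
    intro x hx
    obtain ⟨x1, hx1, hx1'⟩ := he.exists_preimage hx (s := e')
      (by rw [he'.evk_eq]; exact one_ne_zero)
    obtain ⟨x2, hx2, hx2'⟩ := he.exists_preimage hx1 (s := t) (by rw [ht1]; exact one_ne_zero)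
    exact ⟨x2, by rw [hx2', hx1']⟩
  obtain ⟨x', hx'⟩ := hpre x.1 x.2
  obtain ⟨y', hy'⟩ := hpre y.1 y.2
  obtain ⟨z₀, hz₀⟩ := ht2 (x', y')
  have hfst : cev (hop M ε (ResidueField R) S) (hop_commute M ε (ResidueField R) S) t x' =
      trd hv hvM ε (ResidueField R) z₀ := by
    have h1 := cev_natural hTp (hop_commute M ε (ResidueField R) S) (LinearMap.fst R _ _)
      (fun i x => rfl) t (x', y')
    rw [hz₀] at h1
    exact h1.symm
  have hsnd : cev (hop M ε (ResidueField R) S) (hop_commute M ε (ResidueField R) S) t y' =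
      trB ε (ResidueField R) hv hvM z₀ := by
    have h1 := cev_natural hTp (hop_commute M ε (ResidueField R) S) (LinearMap.snd R _ _)
      (fun i x => rfl) t (x', y')
    rw [hz₀] at h1
    exact h1.symm
  refine ⟨⟨cev (hop (M * v) (infl (dvd_mul_right M v) ε) (ResidueField R) S)
    (hop_commute (M * v) (infl (dvd_mul_right M v) ε) (ResidueField R) S) e' z₀,
    he'.apply_mem z₀⟩, Subtype.ext ?_, Subtype.ext ?_⟩
  · rw [coe_trdHm]
    show trd hv hvM ε (ResidueField R)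
      (cev (hop (M * v) (infl (dvd_mul_right M v) ε) (ResidueField R) S)
        (hop_commute (M * v) (infl (dvd_mul_right M v) ε) (ResidueField R) S) e' z₀) = _
    rw [cev_natural _ (hop_commute M ε (ResidueField R) S) (trd hv hvM ε (ResidueField R))
      (fun i x => trd_hop hv hvM _ hvS i x), ← hfst, hx']
  · rw [coe_trBHm]
    show trB ε (ResidueField R) hv hvM
      (cev (hop (M * v) (infl (dvd_mul_right M v) ε) (ResidueField R) S)
        (hop_commute (M * v) (infl (dvd_mul_right M v) ε) (ResidueField R) S) e' z₀) = _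
    rw [cev_natural _ (hop_commute M ε (ResidueField R) S) (trB ε (ResidueField R) hv hvM)
      (fun i x => trB_hop hv hvM _ hvS i x), ← hsnd, hy']

end Bottom

end Fermat.Agent.RTI

end
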